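import Fermat.Agent.S35.ASM.GeoB
import Fermat.Agent.S35.G.Abs
import Fermat.Agent.S34.GoalA

set_option autoImplicit false
set_option linter.unusedSectionVars false

/-!
# S35 / ASM / G2 : `S² y / y ^ (q²)` is an `m`-th power for `y ≡ 1` on both branches, `m ∣ div y`   (twin of `S34.goalA_monic`)

The hypothesis `hone` ("`y ≡ 1` on both branches") is stated for EVERY model `(K, ι, T)` over which `y` is defined; it is supplied by the bridge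
(`S35/C/Bridge.lean`, Gauss predicates over `ℚ̄`).
-/

namespace Fermat.Agent.S35

open AlgebraicCurve ModularCurve IntermediateField
open Fermat.Agent.S24 (Kb FN iotaK)
open Fermat.Agent.GES
open Fermat.Agent.S18 (toFN lineOf)
open Fermat.Agent.S18.V (FK)
open Fermat.Agent.S34 Fermat.Agent.S34.V2

theorem g2_conc (N q p r : ℕ) [NeZero N] [NeZero q] (hq : q.Prime) (hp : p.Prime) (hqp : q ≠ p)
    (hqN : ¬ q ∣ N) (hr : (q ≠ 3 ∧ r = 3) ∨ (q = 3 ∧ r = 2)) (hrN : r ∣ N) (n : ℕ)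
    (A : ValuationSubring Kb) (hA : A.LiesOverPrime q) (s : GQ) (hs : A.IsFrobeniusAt s q)
    (y : FN (N * q)) (hy : y ≠ 0)
    (hdiv : ∀ v : Place Kb (FN (N * q)), ((p ^ n : ℕ) : ℤ) ∣ v.ord y)
    (hone : ∀ (K : Type) [Field K] [NumberField K] [IsGalois ℚ K] (ι : K →+* Kb)
      [IsDiscreteValuationRing ↥(A.comap ι)] (E : Type) [Field E] [Algebra K E]
      [Algebra E ↥(FK K (N * q))] [IsScalarTower K E ↥(FK K (N * q))]
      (T : Two ↥(A.comap ι) K q E ↥(FK K (N * q))), IsConc N q T →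
      ∀ y₀ : ↥(FK K (N * q)), toFN ι (N * q) y₀ = y →
        y₀ - 1 ∈ T.Vi.nonunits ∧ y₀ - 1 ∈ T.V0.nonunits) :
    ∃ w : FN (N * q), w ^ (p ^ n) * y ^ (q ^ 2) = galF (N * q) s (galF (N * q) s y) := by
  have hrM : (lineOf q).r ∣ N := by
    rcases hr with ⟨h3, rfl⟩ | ⟨rfl, rfl⟩
    · have e : lineOf q = S18.line3 := if_neg h3
      rw [e]; exact hrN
    · have e : lineOf 3 = S18.line2 := if_pos rfl
      rw [e]; exact hrN
  obtain ⟨p', hp', hp'q⟩ : ∃ p' : ℕ, p'.Prime ∧ p' ≠ q := by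
    by_cases h : q = 2
    · exact ⟨3, Nat.prime_three, by rw [h]; decide⟩
    · exact ⟨2, Nat.prime_two, Ne.symm h⟩
  have : NeZero p' := ⟨hp'.ne_zero⟩
  have : NeZero (p ^ n) := ⟨pow_ne_zero _ hp.ne_zero⟩
  obtain ⟨ζ₀, hζ₀⟩ := HasEnoughRootsOfUnity.exists_primitiveRoot Kb p'
  obtain ⟨ζ₁, hζ₁⟩ := HasEnoughRootsOfUnity.exists_primitiveRoot Kb N
  obtain ⟨ζb, hζb⟩ := HasEnoughRootsOfUnity.exists_primitiveRoot Kb (p ^ n)
  obtain ⟨γb, hγb⟩ := IsAlgClosed.exists_pow_nat_eq y.1.leadingCoeff (pow_pos hp.pos n)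
  have hK₁ : FiniteDimensional ℚ (IntermediateField.adjoin ℚ ({ζ₀, ζ₁, ζb, γb} : Set Kb)) := by
    apply IntermediateField.finiteDimensional_adjoin
    intro x _
    have h1 : Algebra.IsAlgebraic ℚ Kb := AlgebraicClosure.isAlgebraic ℚ
    exact (Algebra.IsAlgebraic.isAlgebraic x).isIntegral
  obtain ⟨K, fK, nfK, galK, ι, hι, y₀, hy₀, hrat⟩ := exists_pack (N * q) _ hK₁ y hy
  obtain ⟨ζ, hζ⟩ := hι ζ₀ (IntermediateField.subset_adjoin ℚ _ (by simp))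
  obtain ⟨ζM, hζM⟩ := hι ζ₁ (IntermediateField.subset_adjoin ℚ _ (by simp))
  obtain ⟨ζm, hζm⟩ := hι ζb (IntermediateField.subset_adjoin ℚ _ (by simp))
  obtain ⟨γ, hγ⟩ := hι γb (IntermediateField.subset_adjoin ℚ _ (by simp))
  have hDVR : IsDiscreteValuationRing ↥(A.comap ι) := S18.isDVR_comap ι A hq hA
  obtain ⟨ϖ, hϖ⟩ := IsDiscreteValuationRing.exists_irreducible ↥(A.comap ι)
  obtain ⟨E, _, _, _, _, T, hT, hB, hS1, hS2, hF⟩ := geoB N q p' hq hqN hrM A hA hp' hp'q K ι ζ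
    (IsPrimitiveRoot.of_map_of_injective (f := ι) (hζ ▸ hζ₀) ι.injective) ζM
    (IsPrimitiveRoot.of_map_of_injective (f := ι) (hζM ▸ hζ₁) ι.injective) hϖ hs
  obtain ⟨hyi, hy0⟩ := hone K ι E T hT y₀ hy₀
  have hζm' : IsPrimitiveRoot ζm (p ^ n) :=
    IsPrimitiveRoot.of_map_of_injective (f := ι) (hζm ▸ hζb) ι.injective
  have hy₀0 : y₀ ≠ 0 := by
    rintro rfl
    exact hy (by rw [← hy₀, map_zero])
  have hdiv₀ : ∀ v, ((p ^ n : ℕ) : ℤ) ∣ wP ι (N * q) v y₀ := by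
    intro v; rw [wP_apply, hy₀]; exact hdiv v
  have hrat₀ : ∀ v, wP ι (N * q) v y₀ ≠ 0 → RatAt K (wP ι (N * q)) v := by
    intro v hv; exact hrat v (by rwa [wP_apply, hy₀] at hv)
  have htr' : Transcendental K T.xF⁻¹ := hB.trans' (Or.inr rfl)
  have hfin' : FiniteDimensional K⟮T.xF⁻¹⟯ ↥(FK K (N * q)) := by
    rw [S24.principal_adjoin_inv_eq]; exact hB.fin
  have hpR : IsUnit (p : ↥(A.comap ι)) :=
    goalA_isUnit_natCast ι A hA ((Nat.coprime_primes hp hq).2 hqp.symm)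
  -- the root in `K((q))`
  have hcoe : coeffMap ι y₀.1 = y.1 := by rw [← S18.toFN_coe, hy₀]
  have hy₀1 : y₀.1 ≠ 0 := fun h => hy₀0 (Subtype.ext h)
  obtain ⟨Y₀, hY₀⟩ := S18.KPack.exists_pow_eq_of_leadingCoeff (p ^ n) (pow_pos hp.pos n) y₀.1 hy₀1
    (by
      rw [← S18.KPack.order_coeffMap ι, hcoe]
      exact S18.KPack.dvd_order (N * q) (p ^ n) y hy hdiv) γ (by
      apply ι.injective
      rw [map_pow, hγ, hγb, ← hcoe, S18.KPack.leadingCoeff_coeffMap])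
  set σ : K ≃+* K := resK ι s with hσdef
  set σF := galFK σ (N * q) with hσF
  obtain ⟨w₀, hw₀⟩ := frob_abs (R := ↥(A.comap ι)) (K := K) (𝕃 := LaurentSeries K) hϖ hB hp hpR
    (fun z hz => by
      obtain ⟨c, hc⟩ := S18.trans_const z hz
      exact ⟨c, hc⟩) n hζm' (pow_ne_zero 2 hq.ne_zero) hF hyi hy0
    (fun m hm => locHyp_of_valFam hϖ hB (valFam_wP ι (N * q)) (Or.inl rfl) hB.fin
      (intAt_wP ι (N * q) T.xF hB.trans) hS1 hy₀0 hdiv₀ hrat₀ m hm)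
    (fun m hm => locHyp_of_valFam hϖ hB (valFam_wP ι (N * q)) (Or.inr rfl) hfin'
      (intAt_wP ι (N * q) T.xF⁻¹ htr') hS2 hy₀0 hdiv₀ hrat₀ m hm)
    (Y := coeffMap (σ : K →+* K) (coeffMap (σ : K →+* K) Y₀) / Y₀ ^ (q ^ 2)) (by
      show _ = ((σF.trans σF) y₀ / y₀ ^ (q ^ 2) : ↥(FK K (N * q))).1
      have e : ((σF.trans σF) y₀ / y₀ ^ (q ^ 2) : ↥(FK K (N * q))).1 =
          (σF (σF y₀)).1 / y₀.1 ^ (q ^ 2) := rfl
      rw [e, coe_galFK, coe_galFK, ← hY₀, div_pow, map_pow, map_pow, ← pow_mul, ← pow_mul,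
        mul_comm (q ^ 2)])
  refine ⟨toFN ι (N * q) w₀, ?_⟩
  rw [← map_pow, hw₀, map_div₀, RingEquiv.trans_apply, toFN_galFK, toFN_galFK, map_pow, hy₀]
  exact div_mul_cancel₀ _ (pow_ne_zero _ hy)

end Fermat.Agent.S35
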