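import Fermat.Agent.S34.Inst.Conc
import Fermat.Agent.S35.G.CFrob

set_option autoImplicit false
set_option linter.unusedSectionVars false

/-!
# S35 / ASM / GeoB : the geometric package of S35 (twin of `S34.geo_of_roots`, with the Frobenius data)

* `ssAtS_of_two`, `geoS_abs` : abstract (`Two` context) : `Branches`, `SSAtS` in both charts, `FrobLike` for `σ²`.
* `geoB` : the concrete package at level `M * q` over `(K, ι)`, for a given Frobenius element `s` at `A`.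
-/

noncomputable section

namespace Fermat.Agent.S35

open ModularCurve Polynomial IntermediateField Fermat.Agent.S18 Fermat.Agent.S18.V Fermat.Agent.S34
  Fermat.Agent.S34.V2
open Fermat.Agent.S24 (Kb FN)
open Fermat.Agent.GES (GQ galF)

section abs

variable {R K : Type} [CommRing R] [IsDomain R] [IsDiscreteValuationRing R] [Field K] [CharZero K]
  [Algebra R K] [IsFractionRing R K] {q : ℕ} [NeZero q] {E F : Type} [Field E] [Field F]
  [Algebra K E] [Algebra K F] [Algebra E F] [IsScalarTower K E F] {T : Two R K q E F}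

theorem ssAtS_of_two {ϖ : R} (hϖ : Irreducible ϖ) (hB : Branches (K := K) ϖ T.xF T.Vi T.V0)
    {t₁ : E} (ht : t₁ = T.x ∨ t₁ = T.x⁻¹) (h1 : Chart1 K ϖ t₁ T.VE) {s : E ≃+* E}
    (hs : FrobTwist T s) (hM8 : T.i2 t₁ ∈ CInt R K (algebraMap E F t₁)) {jj : E} {D : F} {c₀ : R}
    (hJ : JDHyp T s jj D c₀)
    (hrel : ∃ (B : R[X]) (r : ℕ), 1 ≤ r ∧ IsUnit (B.coeff 0) ∧ jj * t₁ ^ r = evR R K t₁ B) :
    SSAtS (R := R) (K := K) ϖ T.Vi T.V0 (algebraMap E F t₁) := by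
  have ht' : algebraMap E F t₁ = T.xF ∨ algebraMap E F t₁ = T.xF⁻¹ := by
    rcases ht with rfl | rfl
    · exact Or.inl rfl
    · exact Or.inr (map_inv₀ _ _)
  exact ssAtS_of_sides hϖ T.hq.two_le hB ht' h1 (side_i hϖ hB ht h1 hs hM8)
    (side_0 hϖ hB ht h1 hs hM8)
    (jData_of_two hϖ hs hJ.j_ne hJ.j_mem hJ.j_inv_mem hJ.j_fix hrel hJ.c_ne hJ.D_mul hJ.D_mem
      hJ.D_unit hJ.wD_mem hJ.D_int hJ.wD_int hJ.g_int)

/-- **abstract package**. -/
theorem geoS_abs {ϖ : R} (hϖ : Irreducible ϖ) (hc1 : Chart1 K ϖ T.x T.VE)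
    (hc2 : Chart1 K ϖ T.x⁻¹ T.VE) {s : E ≃+* E} (hs : FrobTwist T s)
    (hM8 : IsIntegral (Algebra.adjoin K {T.xF}) T.xq)
    (hM8' : IsIntegral (Algebra.adjoin K {T.xF⁻¹}) T.xq⁻¹)
    {jj : E} {D : F} {c₀ : R} (hJ : JDHyp T s jj D c₀)
    (hrel1 : ∃ (B : R[X]) (r : ℕ), 1 ≤ r ∧ IsUnit (B.coeff 0) ∧ jj * T.x ^ r = evR R K T.x B)
    (hrel2 : ∃ (B : R[X]) (r : ℕ), 1 ≤ r ∧ IsUnit (B.coeff 0) ∧
      jj * T.x⁻¹ ^ r = evR R K T.x⁻¹ B)
    {σF : F ≃+* F} (hσ : ChartAut R K T.xF σF) (hVi : ∀ z : F, σF z ∈ T.Vi ↔ z ∈ T.Vi)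
    (hV0 : ∀ z : F, σF z ∈ T.V0 ↔ z ∈ T.V0)
    (hcomm : ∀ y : E, σF (algebraMap E F y) = algebraMap E F (s y)) :
    Branches (K := K) ϖ T.xF T.Vi T.V0 ∧ SSAtS (R := R) (K := K) ϖ T.Vi T.V0 T.xF ∧
      SSAtS (R := R) (K := K) ϖ T.Vi T.V0 T.xF⁻¹ ∧
      FrobLike (K := K) ϖ T.xF T.Vi T.V0 (q ^ 2) (σF.trans σF) := by
  have hB : Branches (K := K) ϖ T.xF T.Vi T.V0 := T.branches hϖ hc1.fin hc1.inO_iff
  have hxinv : T.x⁻¹ ∈ T.VE := hc2.C_le hϖ (self_mem_CInt _)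
  have e1 : algebraMap E F T.x⁻¹ = T.xF⁻¹ := map_inv₀ _ _
  have e2 : T.i2 T.x⁻¹ = T.xq⁻¹ := map_inv₀ _ _
  have m1 : T.i2 T.x ∈ CInt R K (algebraMap E F T.x) :=
    V2.Branches.mem_CInt hϖ hB hM8 T.xq_mem_Vi T.xq_mem_V0
  have m2 : T.i2 T.x⁻¹ ∈ CInt R K (algebraMap E F T.x⁻¹) := by
    rw [e1, e2]
    refine V2.Branches.mem_CInt_inv hϖ hB hM8' ?_ ?_
    · rw [← e2]; exact T.i2_mem_Vi.2 hxinv
    · rw [← e2]; exact T.i2_mem_V0.2 hxinv
  have hsC : ∀ {t₁ : E}, (t₁ = T.x ∨ t₁ = T.x⁻¹) → ∀ y ∈ CInt R K t₁, s y ∈ CInt R K t₁ :=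
    fun {t₁} ht y hy => mem_CInt_of_semilinear s (hs.map_t ht) hs.map_R hy
  refine ⟨hB, ssAtS_of_two hϖ hB (Or.inl rfl) hc1 hs m1 hJ hrel1, ?_, ?_⟩
  · have h := ssAtS_of_two hϖ hB (Or.inr rfl) hc2 hs m2 hJ hrel2
    rwa [e1] at h
  · refine frobLike_of_sides (V₁ := T.VE) (ι1 := instA1 T) (ι2 := instA2 T) (σE := (s : E →+* E)) hϖ
      hσ hVi hV0 hcomm hs.frob_i hs.frob_0 ?_
    rintro t (rfl | rfl)
    · exact ⟨T.x, hc1, side_i hϖ hB (Or.inl rfl) hc1 hs m1, hsC (Or.inl rfl)⟩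
    · refine ⟨T.x⁻¹, hc2, ?_, hsC (Or.inr rfl)⟩
      have := side_i hϖ hB (Or.inr rfl) hc2 hs m2
      rwa [e1] at this

end abs

section conc

variable {K : Type} [Field K] [NumberField K] [IsGalois ℚ K] (ι : K →+* Kb)
  (A : ValuationSubring Kb) [IsDiscreteValuationRing ↥(A.comap ι)] {M q : ℕ} [NeZero M] [NeZero q]
  {E : Type} [Field E] [Algebra K E] [Algebra E ↥(FK K (M * q))]
  [IsScalarTower K E ↥(FK K (M * q))] {T : Two ↥(A.comap ι) K q E ↥(FK K (M * q))}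

omit [NumberField K] [IsGalois ℚ K] in
theorem conc_jF_galFK [CharZero K] (hT : IsConc M q T) (σ : K ≃+* K) (z : ↥(FK K (M * q))) :
    T.jF (galFK σ (M * q) z) = coeffMap (σ : K →+* K) (T.jF z) := by
  rw [hT.jF_eq, hT.jF_eq, coe_galFK]

omit [NumberField K] [IsGalois ℚ K] in
theorem conc_w_galFK [CharZero K] (hT : IsConc M q T) (σ : K ≃+* K) (z : ↥(FK K (M * q))) :
    galFK σ (M * q) (T.w z) = T.w (galFK σ (M * q) z) := by
  rw [hT.w_eq, hT.w_eq, wQ_galFK]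

/-- the Frobenius twist at level `M` attached to a GIVEN Frobenius element. -/
theorem conc_frobTwist (hT : IsConc M q T) {s : GQ} (hs : A.IsFrobeniusAt s q) :
    ∃ σE : E ≃+* E, FrobTwist T σE ∧
      ∀ y, T.jE (σE y) = coeffMap (resK ι s : K →+* K) (T.jE y) := by
  have hd := hs.mem_decompositionSubgroup
  obtain ⟨σE, hσE⟩ := IsConc.exists_galE ι A hT (resK ι s)
  have hinj : Function.Injective T.jE := T.jE.toRingHom.injective
  have hσ := resK_algebraMap ι A hd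
  have hrE : ∀ r : ↥(A.comap ι), σE (rE _ K E r) = rE _ K E (resR ι A hd r) := by
    intro r
    apply hinj
    rw [hσE, T.jE_rE, T.jE_rE, cst_eq_cR, cst_eq_cR,
      coeffMap_cR (resK ι s : K →+* K) (resR ι A hd) hσ, coeffMap_single]
    rfl
  refine ⟨σE, ⟨?_, fun r => ⟨_, hrE r⟩, fun r => ⟨(resR ι A hd).symm r, ?_⟩, ?_, ?_⟩, hσE⟩
  · apply hinj
    rw [hσE, hT.jE_x, coeffMap_xK]
  · rw [RingEquiv.symm_apply_eq, hrE, RingEquiv.apply_symm_apply]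
  · intro y hy
    exact T.frob_i (resK ι s : K →+* K) (resR ι A hd) hσ (σE : E →+* E) hσE (resR_frob ι A hs) hy
  · intro y hy
    exact T.frob_0 (resK ι s : K →+* K) (resR ι A hd) hσ (σE : E →+* E) hσE (resR_frob ι A hs) hy

/-- the coefficientwise action of an element of the decomposition group is a `ChartAut`. -/
theorem conc_chartAut (hT : IsConc M q T) {s : GQ} (hd : s ∈ A.decompositionSubgroup ℚ) :
    ChartAut ↥(A.comap ι) K T.xF (galFK (resK ι s) (M * q)) := by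
  have hσ := resK_algebraMap ι A hd
  have hrE := T.gal_rE (resK ι s : K →+* K) (resR ι A hd) hσ (galFK (resK ι s) (M * q))
    (conc_jF_galFK ι A hT _)
  refine ⟨?_, fun r => ⟨_, hrE r⟩, fun r => ⟨(resR ι A hd).symm r, ?_⟩⟩
  · apply T.jF.toRingHom.injective
    show T.jF (galFK (resK ι s) (M * q) T.xF) = T.jF T.xF
    rw [hT.jF_eq, coe_galFK, ← hT.jF_eq, Two.xF, T.compat, hT.jE_x, coeffMap_xK]
  · rw [RingEquiv.symm_apply_eq, hrE, RingEquiv.apply_symm_apply]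

end conc

/-- **the geometric package of S35** at level `M * q`, given the roots of unity and a Frobenius element. -/
theorem geoB (M q p : ℕ) [NeZero M] [NeZero q] (hq : q.Prime) (hqM : ¬ q ∣ M)
    (hr : (lineOf q).r ∣ M) (A : ValuationSubring Kb) (hA : A.LiesOverPrime q) (hp : p.Prime)
    (hpq : p ≠ q) (K : Type) [Field K] [NumberField K] [IsGalois ℚ K] (ι : K →+* Kb) (ζ : K)
    (hζ : IsPrimitiveRoot ζ p) (ζM : K) (hζM : IsPrimitiveRoot ζM M)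
    [IsDiscreteValuationRing ↥(A.comap ι)] {ϖ : ↥(A.comap ι)} (hϖ : Irreducible ϖ)
    {s : GQ} (hs : A.IsFrobeniusAt s q) :
    ∃ (E : Type) (_ : Field E) (_ : Algebra K E) (_ : Algebra E ↥(FK K (M * q)))
      (_ : IsScalarTower K E ↥(FK K (M * q))) (T : Two ↥(A.comap ι) K q E ↥(FK K (M * q))),
      IsConc M q T ∧ Branches (K := K) ϖ T.xF T.Vi T.V0 ∧
      SSAtS (K := K) ϖ T.Vi T.V0 T.xF ∧ SSAtS (K := K) ϖ T.Vi T.V0 T.xF⁻¹ ∧
      FrobLike (K := K) ϖ T.xF T.Vi T.V0 (q ^ 2)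
        ((galFK (resK ι s) (M * q)).trans (galFK (resK ι s) (M * q))) := by
  obtain ⟨E, _, _, _, _, T, hT, hc1, hc2⟩ :=
    V2.exists_two' M q p hq hqM hr A hA hp hpq K ι ζ hζ ζM hζM hϖ
  obtain ⟨σE, hσE, hσEj⟩ := conc_frobTwist ι A hT hs
  obtain ⟨jj, hj⟩ := hT.exists_j
  have hd := hs.mem_decompositionSubgroup
  have hσ := resK_algebraMap ι A hd
  obtain ⟨h1, h2, h3, h4⟩ := geoS_abs hϖ hc1 hc2 hσE hT.m8_fin hT.m8_inf
    (hT.jdHyp hqM hj hσE.map_x) (hT.rel_fin hj) (hT.rel_inf hj) (conc_chartAut ι A hT hd)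
    (fun z => T.gal_mem_Vi (resK ι s : K →+* K) (resR ι A hd) hσ _ (conc_jF_galFK ι A hT _))
    (fun z => T.gal_mem_V0 (resK ι s : K →+* K) (resR ι A hd) hσ _ (conc_jF_galFK ι A hT _)
      (conc_w_galFK ι A hT _))
    (fun y => by
      apply T.jF.toRingHom.injective
      show T.jF _ = T.jF _
      rw [conc_jF_galFK ι A hT, T.compat, T.compat, hσEj])
  exact ⟨E, inferInstance, inferInstance, inferInstance, inferInstance, T, hT, h1, h2, h3, h4⟩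

end Fermat.Agent.S35
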